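import Fermat.Agent.LiCriterion.Positivity
import Fermat.Agent.HardyZeros.Decay

/-!
# The coefficients as sums over the zeros

`λ n = ∑ m (2 - a ^ n - a ^ (-n)) / 2` with `a = ρ / (ρ - 1)`; they are real.
-/

set_option autoImplicit false

noncomputable section

namespace FA.LiCriterion

open Complex Filter Topology Set FA.RiemannMangoldt FA.ExplicitFormula
open scoped Real ComplexConjugate Nat

/-- `m (2 - a ^ n - a ^ (-n)) / 2`, `a = ρ / (ρ - 1)`. -/
def liTerm (n : ℕ) (ρ : ℂ) : ℂ :=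
  (zeroWeight ρ : ℂ) * (2 - (ρ / (ρ - 1)) ^ n - ((ρ - 1) / ρ) ^ n) / 2

theorem zero_ne_zero_one {ρ : ℂ} (hρ : xiFn ρ = 0) : ρ ≠ 0 ∧ ρ - 1 ≠ 0 := by
  obtain ⟨h0, h1⟩ := xiFn_zero_strip hρ
  exact ⟨fun h => by rw [h] at h0; simp at h0,
    sub_ne_zero.2 fun h => by rw [h] at h1; simp at h1⟩

theorem norm_one_sub_pow_le {a : ℂ} {M : ℝ} (hM : 1 ≤ M) (ha : ‖a‖ ≤ M) (k : ℕ) :
    ‖1 - a ^ k‖ ≤ k * M ^ k * ‖1 - a‖ := by
  rw [← mul_neg_geom_sum, norm_mul, mul_comm]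
  refine mul_le_mul_of_nonneg_right ?_ (norm_nonneg _)
  refine (norm_sum_le _ _).trans ((Finset.sum_le_sum (g := fun _ => M ^ k) fun i hi => ?_).trans
    (le_of_eq (by simp)))
  rw [norm_pow]
  exact (pow_le_pow_left₀ (norm_nonneg a) ha i).trans
    (pow_le_pow_right₀ hM (Finset.mem_range.1 hi).le)

theorem exists_liTerm_bound : ∃ C M, 0 ≤ C ∧ 1 ≤ M ∧
    (∀ ρ, xiFn ρ = 0 → ‖ρ / (ρ - 1)‖ ≤ M ∧ ‖(ρ - 1) / ρ‖ ≤ M) ∧ ∀ (n : ℕ) (ρ : ℂ),
      ‖liTerm n ρ‖ ≤ C * ((n : ℝ) ^ 2 * M ^ (2 * n)) *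
        (zeroWeight ρ * (1 / (1 + |ρ.im|) ^ 2)) := by
  obtain ⟨c, hc, hord⟩ := exists_ordinate_ge
  obtain ⟨d, hd, hinv⟩ := exists_inv_im_le
  have hratio : ∀ ρ, xiFn ρ = 0 → ‖ρ / (ρ - 1)‖ ≤ 1 + 1 / c ∧ ‖(ρ - 1) / ρ‖ ≤ 1 + 1 / c := by
    intro ρ hρ
    have hcγ : c ≤ |ρ.im| :=
      le_trans (le_mul_of_one_le_right hc.le (by linarith [abs_nonneg ρ.im])) (hord ρ hρ)
    have key : ∀ u v : ℂ, |ρ.im| ≤ ‖v‖ → ‖u‖ ≤ ‖v‖ + 1 → ‖u / v‖ ≤ 1 + 1 / c := fun u v hv huv => by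
      have hv0 : 0 < ‖v‖ := (hc.trans_le hcγ).trans_le hv
      rw [norm_div, div_le_iff₀ hv0, add_mul, one_mul]
      refine huv.trans (add_le_add le_rfl ?_)
      rw [div_mul_eq_mul_div, one_mul, le_div_iff₀ hc, one_mul]
      linarith
    exact ⟨key _ _ (by simpa using abs_im_le_norm (ρ - 1)) (by simpa using norm_add_le (ρ - 1) 1),
      key _ _ (abs_im_le_norm ρ) (by simpa using norm_sub_le ρ 1)⟩
  refine ⟨d ^ 2, 1 + 1 / c, sq_nonneg d, le_add_of_nonneg_right (by positivity), hratio,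
    fun n ρ => ?_⟩
  by_cases hρ : xiFn ρ = 0
  · obtain ⟨h0, h1⟩ := zero_ne_zero_one hρ
    have hi : 0 < |ρ.im| := abs_pos.2 (im_ne_zero_of_zero hρ)
    have hn1 : |ρ.im| ≤ ‖ρ - 1‖ := by simpa using abs_im_le_norm (ρ - 1)
    have hn0 : |ρ.im| ≤ ‖ρ‖ := abs_im_le_norm ρ
    obtain ⟨a, ha⟩ : ∃ a, a = ρ / (ρ - 1) := ⟨_, rfl⟩
    obtain ⟨b, hb⟩ : ∃ b, b = (ρ - 1) / ρ := ⟨_, rfl⟩
    have hab : a ^ n * b ^ n = 1 := by
      rw [← mul_pow, ha, hb, div_mul_div_comm, mul_comm, div_self (mul_ne_zero h1 h0), one_pow]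
    have e : (2 : ℂ) - a ^ n - b ^ n = (1 - a ^ n) * (1 - b ^ n) := by linear_combination -hab
    have hna : ‖1 - a‖ ≤ 1 / |ρ.im| := by
      rw [ha, one_sub_div h1, norm_div, show ρ - 1 - ρ = -1 by ring, norm_neg, norm_one]
      exact one_div_le_one_div_of_le hi hn1
    have hnb : ‖1 - b‖ ≤ 1 / |ρ.im| := by
      rw [hb, one_sub_div h0, sub_sub_cancel, norm_div, norm_one]
      exact one_div_le_one_div_of_le hi hn0
    have hA := norm_one_sub_pow_le (le_add_of_nonneg_right (show 0 ≤ 1 / c by positivity))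
      (ha ▸ (hratio ρ hρ).1) n
    have hB := norm_one_sub_pow_le (le_add_of_nonneg_right (show 0 ≤ 1 / c by positivity))
      (hb ▸ (hratio ρ hρ).2) n
    rw [liTerm, ← ha, ← hb, e, norm_div, norm_mul, norm_mul, Complex.norm_natCast,
      RCLike.norm_ofNat]
    refine (div_le_self (by positivity) one_le_two).trans ?_
    calc (zeroWeight ρ : ℝ) * (‖1 - a ^ n‖ * ‖1 - b ^ n‖)
        ≤ zeroWeight ρ * ((n * (1 + 1 / c) ^ n * (d * (1 / (1 + |ρ.im|)))) *
            (n * (1 + 1 / c) ^ n * (d * (1 / (1 + |ρ.im|))))) := by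
          have h2 := hinv ρ hρ
          refine mul_le_mul_of_nonneg_left (mul_le_mul ?_ ?_ (norm_nonneg _) (by positivity))
            (Nat.cast_nonneg _)
          · exact hA.trans (mul_le_mul_of_nonneg_left (hna.trans h2) (by positivity))
          · exact hB.trans (mul_le_mul_of_nonneg_left (hnb.trans h2) (by positivity))
      _ = _ := by
          rw [two_mul, pow_add, ← one_div_pow]
          ring
  · simp [liTerm, zeroWeight_eq_zero hρ]

theorem hasSum_expand {a u : ℂ} (hu : ‖u‖ < 1) (hau : ‖a * u‖ < 1) :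
    HasSum (fun n : ℕ => (1 - a ^ (n + 1)) * u ^ n) ((1 - a) / ((1 - u) * (1 - a * u))) := by
  have h1 := hasSum_geometric_of_norm_lt_one hu
  have h2 := (hasSum_geometric_of_norm_lt_one hau).mul_left a
  have hu1 : 1 - u ≠ 0 := sub_ne_zero.2 fun h => by rw [← h, norm_one] at hu; exact lt_irrefl _ hu
  have hau1 : 1 - a * u ≠ 0 :=
    sub_ne_zero.2 fun h => by rw [← h, norm_one] at hau; exact lt_irrefl _ hau
  rw [show (1 - a) / ((1 - u) * (1 - a * u)) = (1 - u)⁻¹ - a * (1 - a * u)⁻¹ by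
    field_simp
    ring]
  refine (h1.sub h2).congr_fun fun n => ?_
  ring

theorem expand_value {σ u : ℂ} (h1 : σ - 1 ≠ 0) (hu : 1 - u ≠ 0)
    (hau : 1 - σ / (σ - 1) * u ≠ 0) :
    (1 - σ / (σ - 1)) / ((1 - u) * (1 - σ / (σ - 1) * u)) =
      ((1 - u)⁻¹ - σ)⁻¹ / (1 - u) ^ 2 := by
  have h3 : σ - 1 - σ * u ≠ 0 := by
    have := mul_ne_zero h1 hau
    rwa [show (σ - 1) * (1 - σ / (σ - 1) * u) = σ - 1 - σ * u by field_simp] at this
  have h4 : 1 - σ * (1 - u) ≠ 0 := fun h => h3 (by linear_combination -h)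
  rw [one_sub_div h1, show (1 : ℂ) - σ / (σ - 1) * u = (σ - 1 - σ * u) / (σ - 1) by field_simp,
    show (1 - u)⁻¹ - σ = (1 - σ * (1 - u)) / (1 - u) by field_simp]
  field_simp
  ring

/-- **The series at `0`.** -/
theorem exists_liGen_series : ∃ ε : ℝ, 0 < ε ∧ ∀ u : ℂ, ‖u‖ < ε →
    HasSum (fun n : ℕ => (∑' ρ, liTerm (n + 1) ρ) * u ^ n) (liGen u) := by
  obtain ⟨C, M, hC, hM, hratio, hb⟩ := exists_liTerm_bound
  obtain ⟨A, hA, hsq⟩ := exists_sq_sum
  have hdom : (0 : ℂ) ∈ liDomain := by simpa using real_mem_liDomain one_pos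
  obtain ⟨r, hr, hball⟩ := Metric.isOpen_iff.1 isOpen_liDomain 0 hdom
  refine ⟨min r (1 / (2 * M ^ 2)), lt_min hr (by positivity), fun u hu => ?_⟩
  have hM2 : ‖u‖ * M ^ 2 < 1 / 2 := by
    have := hu.trans_le (min_le_right _ _)
    rw [lt_div_iff₀ (by positivity)] at this
    linarith
  have huD : u ∈ liDomain := hball (mem_ball_zero_iff.2 (hu.trans_le (min_le_left _ _)))
  obtain ⟨T, hT⟩ : ∃ T : ℂ × ℕ → ℂ, T = fun p => liTerm (p.2 + 1) p.1 * u ^ p.2 := ⟨_, rfl⟩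
  have hq : ‖(‖u‖ * M ^ 2 : ℝ)‖ < 1 := by
    rw [Real.norm_of_nonneg (by positivity)]
    linarith
  have hgeo : Summable fun n : ℕ => ((n : ℝ) + 1) ^ 2 * (‖u‖ * M ^ 2) ^ n := by
    have h2 := summable_pow_mul_geometric_of_norm_lt_one 2 hq
    have h0 := summable_geometric_of_norm_lt_one hq
    have h1 := summable_pow_mul_geometric_of_norm_lt_one 1 hq
    refine ((h2.add (h1.mul_left 2)).add h0).congr fun n => ?_
    ring
  have hS : Summable fun ρ : ℂ => (zeroWeight ρ : ℝ) * (1 / (1 + |ρ.im|) ^ 2) :=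
    summable_of_sum_le (fun ρ => by positivity) hsq
  have hsum : Summable T := by
    refine Summable.of_norm_bounded ((hS.mul_of_nonneg (hgeo.mul_left (C * M ^ 2))
      (fun ρ => by positivity) fun n => by positivity)) fun p => ?_
    rw [hT, norm_mul, norm_pow]
    refine (mul_le_mul_of_nonneg_right (hb (p.2 + 1) p.1) (by positivity)).trans (le_of_eq ?_)
    push_cast
    rw [mul_pow, ← pow_mul, mul_add, mul_one, pow_add]
    ring
  have hrho : ∀ ρ : ℂ, HasSum (fun n => T (ρ, n)) (pairTerm (1 - u)⁻¹ ρ / (1 - u) ^ 2) := by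
    intro ρ
    rw [hT]
    by_cases hρ : xiFn ρ = 0
    swap
    · simp [liTerm, pairTerm, zeroWeight_eq_zero hρ]
    obtain ⟨h0, h1⟩ := zero_ne_zero_one hρ
    have hu1 : ‖u‖ < 1 := by nlinarith [norm_nonneg u, one_le_pow₀ hM (n := 2)]
    have hlt : ∀ a : ℂ, ‖a‖ ≤ M → ‖a * u‖ < 1 := fun a ha => by
      rw [norm_mul]
      have hMu : M * ‖u‖ ≤ ‖u‖ * M ^ 2 := by
        nlinarith [mul_nonneg (mul_nonneg (norm_nonneg u) (zero_le_one.trans hM)) (sub_nonneg.2 hM)]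
      exact ((mul_le_mul_of_nonneg_right ha (norm_nonneg u)).trans hMu).trans_lt (by linarith)
    have hne : ∀ z : ℂ, ‖z‖ < 1 → 1 - z ≠ 0 := fun z hz h => by
      rw [← sub_eq_zero.1 h, norm_one] at hz
      exact lt_irrefl _ hz
    have hA := hasSum_expand hu1 (hlt _ (hratio ρ hρ).1)
    have hB := hasSum_expand hu1 (hlt _ (hratio ρ hρ).2)
    have e : (ρ - 1) / ρ = (1 - ρ) / (1 - ρ - 1) := by
      rw [show 1 - ρ - 1 = -ρ by ring, div_neg, ← neg_div, neg_sub]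
    rw [expand_value h1 (hne _ hu1) (hne _ (hlt _ (hratio ρ hρ).1))] at hA
    rw [e, expand_value (by simpa using h0) (hne _ hu1) (hne _ (e ▸ hlt _ (hratio ρ hρ).2)),
      ← e, show (1 - u)⁻¹ - (1 - ρ) = (1 - u)⁻¹ - 1 + ρ by ring] at hB
    rw [pairTerm, show (zeroWeight ρ : ℂ) * (((1 - u)⁻¹ - ρ)⁻¹ + ((1 - u)⁻¹ - 1 + ρ)⁻¹) / 2 /
        (1 - u) ^ 2 = (zeroWeight ρ : ℂ) / 2 * (((1 - u)⁻¹ - ρ)⁻¹ / (1 - u) ^ 2 +
          ((1 - u)⁻¹ - 1 + ρ)⁻¹ / (1 - u) ^ 2) by ring]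
    refine ((hA.add hB).mul_left ((zeroWeight ρ : ℂ) / 2)).congr_fun fun n => ?_
    simp only [liTerm]
    ring
  have h' : (∑' p, T p) = liGen u :=
    (hsum.hasSum.prod_fiberwise hrho).unique ((hasSum_pairTerm huD.2).div_const _)
  have hswap : HasSum (fun p : ℕ × ℂ => T (p.2, p.1)) (liGen u) :=
    h' ▸ (Equiv.prodComm ℕ ℂ).hasSum_iff.2 hsum.hasSum
  refine hswap.prod_fiberwise fun n => ?_
  rw [hT]
  have hn : Summable fun ρ => liTerm (n + 1) ρ :=
    Summable.of_norm_bounded (hS.mul_left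
      (C * (((n + 1 : ℕ) : ℝ) ^ 2 * M ^ (2 * (n + 1))))) fun ρ => hb (n + 1) ρ
  exact hn.hasSum.mul_right _

/-- The series of `liTerm n` converge absolutely. -/
theorem summable_liTerm (n : ℕ) : Summable fun ρ => liTerm n ρ := by
  obtain ⟨C, M, -, -, -, hb⟩ := exists_liTerm_bound
  obtain ⟨A, -, hsq⟩ := exists_sq_sum
  exact Summable.of_norm_bounded ((summable_of_sum_le (fun ρ => by positivity) hsq).mul_left
    (C * ((n : ℝ) ^ 2 * M ^ (2 * n)))) (hb n)

/-- **The Taylor coefficients.** -/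
theorem iteratedDeriv_liGen (n : ℕ) :
    iteratedDeriv n liGen 0 = (n ! : ℂ) * ∑' ρ, liTerm (n + 1) ρ := by
  obtain ⟨ε, hε, hser⟩ := exists_liGen_series
  have h1 : HasFPowerSeriesAt liGen
      (FormalMultilinearSeries.ofScalars ℂ fun k => ∑' ρ, liTerm (k + 1) ρ) 0 := by
    refine hasFPowerSeriesAt_iff.2 ?_
    filter_upwards [Metric.ball_mem_nhds (0 : ℂ) hε] with z hz
    rw [zero_add]
    refine (hser z (mem_ball_zero_iff.1 hz)).congr_fun fun k => ?_
    rw [FormalMultilinearSeries.coeff_ofScalars, smul_eq_mul, mul_comm]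
  have hdom : (0 : ℂ) ∈ liDomain := by simpa using real_mem_liDomain one_pos
  have h2 := (differentiableOn_liGen.analyticAt (isOpen_liDomain.mem_nhds hdom)).hasFPowerSeriesAt
  have h := congrArg (fun p => FormalMultilinearSeries.coeff p n) (h1.eq_formalMultilinearSeries h2)
  simp only [FormalMultilinearSeries.coeff_ofScalars] at h
  rw [h, mul_div_cancel₀ _ (Nat.cast_ne_zero.2 n.factorial_ne_zero)]

theorem xiFn_conj (s : ℂ) : xiFn (conj s) = conj (xiFn s) := by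
  have hd : Differentiable ℂ (conj ∘ xiFn ∘ conj) := fun z =>
    differentiableAt_conj_conj_iff.2 (differentiable_xiFn _)
  have hE : EqOn (conj ∘ xiFn ∘ conj) xiFn univ := by
    refine AnalyticOnNhd.eqOn_of_preconnected_of_eventuallyEq
      (fun z _ => hd.analyticAt z) (fun z _ => differentiable_xiFn.analyticAt z)
      isPreconnected_univ (mem_univ (2 : ℂ)) ?_
    have ho : IsOpen {z : ℂ | 1 < z.re} := isOpen_lt continuous_const continuous_re
    filter_upwards [ho.mem_nhds (show (2 : ℂ) ∈ {z : ℂ | 1 < z.re} by simp)] with z hz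
    have hz : 1 < z.re := hz
    have key : ∀ w : ℂ, 1 < w.re →
        xiFn w = w * (w - 1) * Gammaℝ w * riemannZeta w / 2 := fun w hw => by
      have hw1 : w ≠ 1 := fun h => by simp [h] at hw
      have := sub_ne_zero.2 hw1
      rw [xiFn_eq (by linarith), riemannZeta_eq_inv_sub_mul hw1]
      field_simp
    rw [Function.comp_apply, Function.comp_apply, key _ (by simpa using hz), key z hz]
    simp only [map_div₀, map_mul, map_sub, map_one, map_ofNat, Complex.conj_conj,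
      FA.HardyZeros.conj_Gammaℝ, riemannZeta_conj]
  have h := hE (mem_univ (conj s))
  simp only [Function.comp_apply, Complex.conj_conj] at h
  exact h.symm

theorem liGen_conj_conj : conj ∘ liGen ∘ conj = liGen := by
  have hx : conj ∘ xiFn ∘ conj = xiFn := funext fun z => by simp [xiFn_conj]
  have hd : conj ∘ deriv xiFn ∘ conj = deriv xiFn := by rw [← deriv_conj_conj, hx]
  funext z
  have hd' : conj (deriv xiFn (1 - conj z)⁻¹) = deriv xiFn (1 - z)⁻¹ := by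
    conv_rhs => rw [← hd]
    simp [map_inv₀]
  simp only [Function.comp_apply, liGen, xiLogDeriv, map_div₀, map_pow, map_sub, map_one,
    Complex.conj_conj, hd', ← xiFn_conj, map_inv₀]

theorem iteratedDeriv_conj_conj (f : ℂ → ℂ) (n : ℕ) :
    iteratedDeriv n (conj ∘ f ∘ conj) = conj ∘ iteratedDeriv n f ∘ conj := by
  induction n with
  | zero => simp
  | succ n ih => rw [iteratedDeriv_succ, ih, deriv_conj_conj, ← iteratedDeriv_succ]

/-- The coefficients are real. -/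
theorem im_iteratedDeriv_liGen (n : ℕ) : (iteratedDeriv n liGen 0).im = 0 := by
  have h := congrFun (iteratedDeriv_conj_conj liGen n) 0
  rw [liGen_conj_conj] at h
  simp only [Function.comp_apply, map_zero] at h
  exact Complex.conj_eq_iff_im.1 h.symm

theorem re_liTerm_nonneg {ρ : ℂ} (hρ : ρ.re = 1 / 2) (n : ℕ) : 0 ≤ (liTerm n ρ).re := by
  obtain ⟨a, ha⟩ : ∃ a, a = ρ / (ρ - 1) := ⟨_, rfl⟩
  have hn : ‖ρ - 1‖ = ‖ρ‖ := by
    rw [← sq_eq_sq₀ (norm_nonneg _) (norm_nonneg _), Complex.sq_norm, Complex.sq_norm,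
      normSq_apply, normSq_apply]
    simp only [sub_re, sub_im, one_re, one_im, sub_zero, hρ]
    norm_num
  have hne : ρ ≠ 0 := fun h => by rw [h] at hρ; norm_num at hρ
  have h1 : ‖a‖ = 1 := by rw [ha, norm_div, hn, div_self (norm_ne_zero_iff.2 hne)]
  rw [liTerm, ← inv_div ρ (ρ - 1), ← ha, inv_pow]
  have h2 : (a ^ n)⁻¹ = conj (a ^ n) := Complex.inv_eq_conj (by rw [norm_pow, h1, one_pow])
  have h3 : (a ^ n).re ≤ 1 := (Complex.re_le_norm _).trans (by rw [norm_pow, h1, one_pow])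
  rw [h2, Complex.div_ofNat_re, ← Complex.ofReal_natCast, re_ofReal_mul]
  simp only [sub_re, conj_re, re_ofNat]
  exact div_nonneg (mul_nonneg (Nat.cast_nonneg _) (by linarith)) two_pos.le

end FA.LiCriterion

end
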