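import Fermat.Agent.ExplicitFormula.Contour

/-!
# The partial fractions of `ξ'/ξ`

`ξ'/ξ s - ξ'/ξ 0 = ∑ m (1 / (s - ρ) + 1 / ρ)`: the integral of `ξ'/ξ u · s / (u (u - s))` round
`[1 - T, T] × [-T, T]` tends to `0` along heights away from the ordinates.
-/

set_option autoImplicit false

noncomputable section

namespace FA.LiCriterion

open Complex Filter Topology MeasureTheory Set FA.RiemannMangoldt FA.ZeroFree FA.ExplicitFormula
open scoped Real ArithmeticFunction.vonMangoldt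

theorem exists_far_right : ∃ C, 0 ≤ C ∧ ∀ u : ℂ, 3 / 2 ≤ u.re →
    ‖xiLogDeriv u‖ ≤ C * ell ‖u‖ := by
  obtain ⟨A, hA⟩ : ∃ A, A = ∑' n, ‖LSeries.term (fun n => ((Λ n : ℝ) : ℂ)) ((3 / 2 : ℝ) : ℂ) n‖ :=
    ⟨_, rfl⟩
  have hA0 : 0 ≤ A := hA ▸ tsum_nonneg fun n => norm_nonneg _
  refine ⟨10 + A, by positivity, fun u hu => ?_⟩
  have hu1 : u ≠ 1 := fun h => by rw [h] at hu; norm_num at hu
  have hnz : riemannZeta u ≠ 0 := riemannZeta_ne_zero_of_one_le_re (by linarith)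
  have hl := four_le_ell ‖u‖
  rw [xiLogDeriv_eq_reg (by linarith) hu1 hnz]
  have h1 : ‖(u - 1)⁻¹‖ ≤ 2 := (norm_inv_sub_one_le (a := 1 / 2) (by norm_num)
    (Or.inr (by rw [abs_of_nonneg (by linarith)]; linarith))).trans (by norm_num)
  have h2 : ‖gammaReg u‖ ≤ 7 + 2 * ell ‖u‖ := by
    have hre : 1 / 4 ≤ (u / 2 + 1).re := by simp; linarith
    have hn : ‖u / 2 + 1‖ + 2 ≤ ‖u‖ + 100 := by
      have := norm_add_le (u / 2) 1
      rw [norm_div, norm_one, RCLike.norm_ofNat] at this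
      linarith [norm_nonneg u]
    have hlog := Real.log_le_log (by positivity) hn
    have hπ : |Real.log Real.pi| ≤ 4 := by
      rw [abs_of_nonneg (Real.log_nonneg (by linarith [Real.pi_gt_three]))]
      exact (Real.log_le_self Real.pi_pos.le).trans Real.pi_le_four
    rw [gammaReg]
    refine (norm_add_le _ _).trans ?_
    rw [norm_div _ (2 : ℂ), norm_div _ (2 : ℂ), norm_neg, Complex.norm_real, Real.norm_eq_abs,
      RCLike.norm_ofNat]
    have h6 := norm_digamma_le hre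
    have he : Real.log (‖u‖ + 100) = ell ‖u‖ := by rw [ell, abs_norm]
    linarith
  have h3 : ‖deriv riemannZeta u / riemannZeta u‖ ≤ A := by
    have hsum : ∀ w : ℂ, 1 < w.re → LSeriesSummable (fun n => ((Λ n : ℝ) : ℂ)) w := fun w hw =>
      ArithmeticFunction.LSeriesSummable_vonMangoldt hw
    have he : ‖deriv riemannZeta u / riemannZeta u‖ =
        ‖LSeries (fun n => ((Λ n : ℝ) : ℂ)) u‖ := by
      rw [ArithmeticFunction.LSeries_vonMangoldt_eq_deriv_riemannZeta_div (by linarith), neg_div,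
        norm_neg]
    rw [he, hA]
    refine (norm_tsum_le_tsum_norm (hsum u (by linarith)).norm).trans
      (Summable.tsum_le_tsum (fun n => LSeries.norm_term_le_of_re_le_re _ (by simpa using hu) n)
        (hsum u (by linarith)).norm (hsum _ (by norm_num)).norm)
  refine (norm_add₃_le).trans ?_
  nlinarith [mul_le_mul_of_nonneg_left (show 1 ≤ ell ‖u‖ by linarith) hA0]

theorem xiLogDeriv_reflect (u : ℂ) : ‖xiLogDeriv u‖ = ‖xiLogDeriv (1 - u)‖ := by
  rw [xiLogDeriv_one_sub, norm_neg]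

/-- The bound on the boundary of `[1 - T, T] × [-T, T]`. -/
theorem exists_edge_bound : ∃ C, 0 ≤ C ∧ ∀ T δ : ℝ, 4 ≤ T → 0 < δ → δ ≤ 1 →
    (∀ ρ, xiFn ρ = 0 → δ ≤ |(|ρ.im| - T)|) → ∀ u ∈ boxEdges (1 - T) T T,
      ‖xiLogDeriv u‖ ≤ C * ell T / δ := by
  obtain ⟨A, hA, hfar⟩ := exists_far_right
  obtain ⟨B, hB, hhor⟩ := exists_horizontal
  refine ⟨4 * A + B + 12, by positivity, fun T δ hT hδ hδ1 hgap u hu => ?_⟩
  obtain ⟨hre, him, hside⟩ := hu
  rw [uIcc_of_le (by linarith)] at hre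
  rw [uIcc_of_le (by linarith)] at him
  have hlT := four_le_ell T
  have hd1 : 1 ≤ 1 / δ := by rw [le_div_iff₀ hδ]; linarith
  have h4 : ell (4 * T) ≤ 4 * ell T := by
    rw [show 4 * T = 2 * (2 * T) by ring]
    exact (ell_two_mul _).trans (by linarith [ell_two_mul T])
  have hnorm : ‖u‖ ≤ 4 * T ∧ ‖1 - u‖ ≤ 4 * T := by
    constructor
    · refine (norm_le_abs_re_add_abs_im _).trans ?_
      have h1 : |u.re| ≤ 2 * T := abs_le.2 ⟨by linarith [hre.1], by linarith [hre.2]⟩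
      linarith [abs_le.2 him]
    · refine (norm_le_abs_re_add_abs_im _).trans ?_
      have h1 : |(1 - u).re| ≤ 2 * T := by
        rw [sub_re, one_re]
        exact abs_le.2 ⟨by linarith [hre.2], by linarith [hre.1]⟩
      have h2 : |(1 - u).im| ≤ T := by
        rw [sub_im, one_im, zero_sub, abs_neg]
        exact abs_le.2 him
      linarith
  have hgoal : ∀ w : ℂ, ‖w‖ ≤ 4 * T → 3 / 2 ≤ w.re →
      ‖xiLogDeriv w‖ ≤ (4 * A + B + 12) * ell T / δ := fun w hw hwre => by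
    have h6 : ell ‖w‖ ≤ 4 * ell T := (ell_mono (by
      rw [abs_norm, abs_of_nonneg (by linarith : (0 : ℝ) ≤ 4 * T)]; exact hw)).trans h4
    calc ‖xiLogDeriv w‖ ≤ A * (4 * ell T) :=
          (hfar w hwre).trans (mul_le_mul_of_nonneg_left h6 hA)
      _ ≤ (4 * A + B + 12) * ell T := by nlinarith
      _ ≤ _ := le_div_self (by positivity) hδ hδ1
  by_cases hright : 3 / 2 ≤ u.re
  · exact hgoal u hnorm.1 hright
  by_cases hleft : u.re ≤ -1 / 2
  · rw [xiLogDeriv_reflect]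
    exact hgoal _ hnorm.2 (by rw [sub_re, one_re]; linarith)
  have htop : |u.im| = T := by
    rcases hside with h | h | h | h
    · rw [h, abs_neg, abs_of_pos (by linarith)]
    · rw [h, abs_of_pos (by linarith)]
    · exfalso; linarith
    · exfalso; linarith
  have h7 := hhor u.re u.im δ (by linarith) (by linarith) (by rw [htop]; linarith) hδ hδ1
    (fun ρ hρ => by rw [htop]; exact hgap ρ hρ)
  rw [re_add_im] at h7
  have heT : ell u.im = ell T := by rw [ell, ell, htop, abs_of_pos (by linarith : 0 < T)]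
  rw [heT] at h7
  have hg := norm_gammaReg_le (s := u) (by linarith) (by linarith)
  rw [htop] at hg
  have hg' : ‖gammaReg u‖ ≤ 8 + 2 * ell T := by
    rwa [ell, abs_of_pos (by linarith : 0 < T)]
  have hi := norm_inv_sub_one_le (s := u) one_pos (Or.inl (by rw [htop]; linarith))
  have e : xiLogDeriv u = (u - 1)⁻¹ + gammaReg u - negLogDeriv u := by rw [negLogDeriv]; ring
  rw [e]
  refine (norm_sub_le _ _).trans ((add_le_add (norm_add_le _ _) le_rfl).trans ?_)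
  rw [mul_div_assoc] at h7 ⊢
  have h8 : ell T ≤ ell T / δ := le_div_self (by linarith) hδ hδ1
  nlinarith [mul_nonneg hA (show 0 ≤ ell T / δ by positivity)]

/-- The integral round the box is short. -/
theorem norm_boxInt_le {F : ℂ → ℂ} {a b T M : ℝ} (hab : a ≤ b) (hT : 0 ≤ T)
    (hM : ∀ u ∈ boxEdges a b T, ‖F u‖ ≤ M) :
    ‖boxInt F a b T‖ ≤ M * (2 * (b - a) + 4 * T) := by
  have h1 : ‖∫ u in a..b, F ((u : ℂ) + ((-T : ℝ) : ℂ) * I)‖ ≤ M * |b - a| :=
    intervalIntegral.norm_integral_le_of_norm_le_const fun u hu =>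
      hM _ (edge_bottom (uIoc_subset_uIcc hu))
  have h2 : ‖∫ u in a..b, F ((u : ℂ) + (T : ℂ) * I)‖ ≤ M * |b - a| :=
    intervalIntegral.norm_integral_le_of_norm_le_const fun u hu =>
      hM _ (edge_top (uIoc_subset_uIcc hu))
  have h3 : ‖∫ y in (-T)..T, F ((b : ℂ) + (y : ℂ) * I)‖ ≤ M * |T - -T| :=
    intervalIntegral.norm_integral_le_of_norm_le_const fun y hy =>
      hM _ (edge_right (uIoc_subset_uIcc hy))
  have h4 : ‖∫ y in (-T)..T, F ((a : ℂ) + (y : ℂ) * I)‖ ≤ M * |T - -T| :=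
    intervalIntegral.norm_integral_le_of_norm_le_const fun y hy =>
      hM _ (edge_left (uIoc_subset_uIcc hy))
  rw [abs_of_nonneg (by linarith)] at h1 h2 h3 h4
  rw [boxInt]
  refine (norm_sub_le _ _).trans ((add_le_add ((norm_add_le _ _).trans
    (add_le_add (norm_sub_le _ _) le_rfl)) le_rfl).trans ?_)
  rw [norm_mul, norm_mul, norm_I, one_mul, one_mul]
  linarith

/-- `m (1 / (s - ρ) + 1 / ρ)`. -/
def fracTerm (s ρ : ℂ) : ℂ := (zeroWeight ρ : ℂ) * ((s - ρ)⁻¹ + ρ⁻¹)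

/-- **The residues.** -/
theorem boxInt_frac {s : ℂ} (hxs : xiFn s ≠ 0) {T : ℝ} (hT : 4 ≤ T)
    (hsT : 2 * ‖s‖ + 4 ≤ T) (hord : ∀ ρ, xiFn ρ = 0 → |ρ.im| ≠ T) :
    boxInt (fun u => xiLogDeriv u * (s / (u * (u - s)))) (1 - T) T T = 2 * π * I *
      (xiLogDeriv s - xiLogDeriv 0 - ∑ ρ ∈ zerosUpTo T, fracTerm s ρ) := by
  obtain ⟨Z, h, hh, he, hZ, hne, hcount⟩ := exists_xi_factor (R := 3 * T + 3) (by linarith)
  have hball : ∀ u : ℂ, u.re ∈ Icc (1 - T) T → u.im ∈ Icc (-T) T →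
      u ∈ Metric.closedBall (2 : ℂ) (3 * T + 3) := fun u h1 h2 => by
    rw [Metric.mem_closedBall, dist_eq_norm]
    refine (norm_le_abs_re_add_abs_im _).trans ?_
    simp only [sub_re, sub_im, re_ofNat, im_ofNat, sub_zero]
    have : |u.re - 2| ≤ 2 * T + 3 := abs_le.2 ⟨by linarith [h1.1], by linarith [h1.2]⟩
    linarith [abs_le.2 h2]
  obtain ⟨U, hU⟩ : ∃ U : Set ℂ, U = {u | h u ≠ 0} := ⟨_, rfl⟩
  have hUo : IsOpen U := hU ▸ isOpen_ne_fun hh.continuous continuous_const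
  have hbox : ∀ u : ℂ, u.re ∈ Icc (1 - T) T → u.im ∈ Icc (-T) T → u ∈ U :=
    fun u h1 h2 => hU ▸ hne u (hball u h1 h2)
  have hHd : DifferentiableOn ℂ (fun u => deriv h u / h u) U := fun u hu => by
    rw [hU] at hu
    exact ((hh.analyticAt u).deriv.differentiableAt.div (hh u) hu).differentiableWithinAt
  have hedge : ∀ u ∈ boxEdges (1 - T) T T, u.re ∈ Icc (1 - T) T ∧ u.im ∈ Icc (-T) T :=
    fun u hu => by
    obtain ⟨h1, h2, -⟩ := hu
    rw [uIcc_of_le (by linarith)] at h1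
    rw [uIcc_of_le (by linarith)] at h2
    exact ⟨h1, h2⟩
  have hsn := norm_nonneg s
  have hins : (1 - T < s.re ∧ s.re < T) ∧ |s.im| < T := by
    have h1 := abs_le.1 (abs_re_le_norm s)
    exact ⟨⟨by linarith, by linarith⟩, by linarith [abs_im_le_norm s]⟩
  have hin0 : (1 - T < (0 : ℂ).re ∧ (0 : ℂ).re < T) ∧ |(0 : ℂ).im| < T := by
    refine ⟨⟨?_, ?_⟩, ?_⟩ <;> simp <;> linarith
  have hinZ : ∀ ρ ∈ Z, 1 - T < ρ.re ∧ ρ.re < T := fun ρ hρ => by
    obtain ⟨a, b⟩ := xiFn_zero_strip (hZ ρ hρ)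
    exact ⟨by linarith, by linarith⟩
  have hρne : ∀ ρ ∈ Z, ρ ≠ s ∧ ρ ≠ 0 := fun ρ hρ => ⟨fun e => hxs (e ▸ hZ ρ hρ),
    fun e => xiFn_real_ne_zero 0 (by simpa [e] using hZ ρ hρ)⟩
  obtain ⟨c, hc⟩ : ∃ c : ℂ → ℂ, c = fun a => (Z.map fun ρ => (a - ρ)⁻¹).sum := ⟨_, rfl⟩
  obtain ⟨P, hP⟩ : ∃ P : ℂ → ℂ → ℂ, P = fun a u => (deriv h u / h u + c a) / (u - a) := ⟨_, rfl⟩
  have hPd : ∀ a : ℂ, DifferentiableOn ℂ (fun u => deriv h u / h u + c a) U := fun a =>
    hHd.add_const _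
  have hPc : ∀ a : ℂ, ((1 - T < a.re ∧ a.re < T) ∧ |a.im| < T) →
      ∀ u ∈ boxEdges (1 - T) T T, ContinuousAt (P a) u := fun a ha u hu => by
    obtain ⟨h1, h2⟩ := hedge u hu
    rw [hP]
    exact (((hPd a).differentiableAt (hUo.mem_nhds (hbox u h1 h2))).continuousAt).div
      (continuousAt_id.sub continuousAt_const)
      (sub_ne_zero.2 (interior_not_edge ha.1.1 ha.1.2 ha.2.ne (by linarith) hu))
  have hPval : ∀ a : ℂ, ((1 - T < a.re ∧ a.re < T) ∧ |a.im| < T) →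
      boxInt (P a) (1 - T) T T = 2 * π * I * (deriv h a / h a + c a) := fun a ha => by
    rw [hP]
    exact (boxInt_residue hUo (hPd a) hbox (by linarith) ha.1.1 ha.1.2 ha.2.ne).trans
      (if_pos ha.2)
  obtain ⟨Q, hQ⟩ : ∃ Q : ℂ → ℂ → ℂ,
      Q = fun ρ u => ((ρ - s)⁻¹ - ρ⁻¹) / (u - ρ) := ⟨_, rfl⟩
  have hQc : ∀ ρ ∈ Z, ∀ u ∈ boxEdges (1 - T) T T, ContinuousAt (Q ρ) u := fun ρ hρ u hu => by
    rw [hQ]
    exact continuousAt_const.div (continuousAt_id.sub continuousAt_const)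
      (sub_ne_zero.2 (interior_not_edge (hinZ ρ hρ).1 (hinZ ρ hρ).2 (hord ρ (hZ ρ hρ))
        (by linarith) hu))
  obtain ⟨hQsc, hQsum⟩ := boxInt_multiset_sum Z hQc
  have hc2 : ∀ u ∈ boxEdges (1 - T) T T, ContinuousAt (fun u => P s u - P 0 u) u :=
    fun u hu => (hPc s hins u hu).sub (hPc 0 hin0 u hu)
  have hzne : ∀ u ∈ boxEdges (1 - T) T T, ∀ ρ ∈ Z, u ≠ ρ := fun u hu ρ hρ =>
    interior_not_edge (hinZ ρ hρ).1 (hinZ ρ hρ).2 (hord ρ (hZ ρ hρ)) (by linarith) hu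
  rw [boxInt_congr (G := fun u => (P s u - P 0 u) + (Z.map fun ρ => Q ρ u).sum) fun u hu => ?_,
    boxInt_add hc2 hQsc, boxInt_sub (hPc s hins) (hPc 0 hin0), hPval s hins, hPval 0 hin0, hQsum]
  · have hmap : (Z.map fun ρ => boxInt (Q ρ) (1 - T) T T) = Z.map fun ρ => -(2 * π * I) *
        (if |ρ.im| < T then (s - ρ)⁻¹ + ρ⁻¹ else 0) := by
      refine Multiset.map_congr rfl fun ρ hρ => ?_
      rw [hQ, boxInt_residue (U := univ) (φ := fun _ => (ρ - s)⁻¹ - ρ⁻¹) isOpen_univ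
        (differentiableOn_const _) (fun _ _ _ => mem_univ _) (by linarith) (hinZ ρ hρ).1
        (hinZ ρ hρ).2 (hord ρ (hZ ρ hρ))]
      split_ifs
      · rw [← neg_sub ρ s, inv_neg]
        ring
      · ring
    rw [hmap, Multiset.sum_map_mul_left]
    have hsum : (Z.map fun ρ => if |ρ.im| < T then (s - ρ)⁻¹ + ρ⁻¹ else 0).sum =
        ∑ ρ ∈ zerosUpTo T, fracTerm s ρ := by
      classical
      rw [Finset.sum_multiset_map_count]
      simp only [smul_ite, smul_zero]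
      rw [← Finset.sum_filter]
      have hstrip : ∀ ρ : ℂ, xiFn ρ = 0 → |ρ.im| ≤ T →
          ρ ∈ Metric.closedBall (2 : ℂ) (3 * T + 3) := fun ρ hρ hi => by
        obtain ⟨a, b⟩ := xiFn_zero_strip hρ
        exact hball ρ ⟨by linarith, by linarith⟩ (abs_le.1 hi)
      refine Finset.sum_congr ?_ fun ρ hρ => ?_
      · ext ρ
        rw [Finset.mem_filter, Multiset.mem_toFinset, mem_zerosUpTo]
        refine ⟨fun hρ => ⟨hZ ρ hρ.1, hρ.2.le⟩,
          fun hρ => ⟨?_, lt_of_le_of_ne hρ.2 (hord ρ hρ.1)⟩⟩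
        rw [← Multiset.one_le_count_iff_mem, ← hcount ρ (hstrip ρ hρ.1 hρ.2)]
        exact one_le_zeroWeight hρ.1
      · rw [mem_zerosUpTo] at hρ
        rw [← hcount ρ (hstrip ρ hρ.1 hρ.2), nsmul_eq_mul, fracTerm, zeroWeight]
    have hval : ∀ a : ℂ, ((1 - T < a.re ∧ a.re < T) ∧ |a.im| < T) → xiFn a ≠ 0 →
        deriv h a / h a + c a = xiLogDeriv a := fun a ha hxa => by
      rw [xiLogDeriv_factor hh he (fun ρ hρ e => hxa (by rw [e]; exact hZ ρ hρ))
        (hne a (hball a ⟨ha.1.1.le, ha.1.2.le⟩ (abs_le.1 ha.2.le))), hc]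
      ring
    rw [hsum, hval s hins hxs, hval 0 hin0 (by simpa using xiFn_real_ne_zero 0)]
    ring
  · obtain ⟨h1, h2⟩ := hedge u hu
    have hus : u - s ≠ 0 :=
      sub_ne_zero.2 (interior_not_edge hins.1.1 hins.1.2 hins.2.ne (by linarith) hu)
    have hu0 : u ≠ 0 := interior_not_edge hin0.1.1 hin0.1.2 hin0.2.ne (by linarith) hu
    have hm : (Z.map fun ρ => Q ρ u) = Z.map fun ρ =>
        s / (u * (u - s)) * (u - ρ)⁻¹ + (-(u - s)⁻¹) * (s - ρ)⁻¹ + u⁻¹ * (0 - ρ)⁻¹ := by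
      refine Multiset.map_congr rfl fun ρ hρ => ?_
      have n1 := sub_ne_zero.2 (hzne u hu ρ hρ)
      have n2 := sub_ne_zero.2 (hρne ρ hρ).1
      have n3 := (hρne ρ hρ).2
      have n4 : s - ρ ≠ 0 := sub_ne_zero.2 (hρne ρ hρ).1.symm
      rw [hQ, zero_sub]
      field_simp
      ring
    dsimp only
    rw [hm, Multiset.sum_map_add, Multiset.sum_map_add, Multiset.sum_map_mul_left,
      Multiset.sum_map_mul_left, Multiset.sum_map_mul_left,
      xiLogDeriv_factor hh he (hzne u hu) (hne u (hball u h1 h2)), hP, hc]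
    simp only [sub_zero]
    field_simp
    ring

theorem summable_norm_fracTerm (s : ℂ) : Summable fun ρ => ‖fracTerm s ρ‖ := by
  obtain ⟨d, hd, hinv⟩ := exists_inv_im_le
  obtain ⟨A, hA, hsq⟩ := exists_sq_sum
  have hsum : Summable fun ρ : ℂ => (zeroWeight ρ : ℝ) * (1 / (1 + |ρ.im|) ^ 2) :=
    summable_of_sum_le (fun ρ => by positivity) hsq
  refine Summable.of_norm_bounded_eventually (hsum.mul_left (2 * ‖s‖ * d ^ 2)) ?_
  rw [Filter.eventually_cofinite]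
  refine (zerosUpTo (2 * ‖s‖)).finite_toSet.subset fun ρ hρ => ?_
  simp only [mem_ofPred_eq, norm_norm] at hρ
  by_contra hmem
  apply hρ
  by_cases hz : xiFn ρ = 0
  · have hgt : 2 * ‖s‖ < |ρ.im| :=
      not_le.1 fun hle => hmem (Finset.mem_coe.2 (mem_zerosUpTo.2 ⟨hz, hle⟩))
    have hi : 0 < |ρ.im| := abs_pos.2 (im_ne_zero_of_zero hz)
    have hn1 : |ρ.im| ≤ ‖ρ‖ := abs_im_le_norm ρ
    have hn2 : |ρ.im| / 2 ≤ ‖s - ρ‖ := by
      have := norm_sub_norm_le ρ s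
      rw [norm_sub_rev] at this
      linarith
    have hρ0 : ρ ≠ 0 := norm_pos_iff.1 (hi.trans_le hn1)
    have hsρ : s - ρ ≠ 0 := norm_pos_iff.1 (lt_of_lt_of_le (half_pos hi) hn2)
    rw [fracTerm, norm_mul, Complex.norm_natCast,
      show (s - ρ)⁻¹ + ρ⁻¹ = s / ((s - ρ) * ρ) by field_simp; ring, norm_div, norm_mul]
    calc (zeroWeight ρ : ℝ) * (‖s‖ / (‖s - ρ‖ * ‖ρ‖))
        ≤ zeroWeight ρ * (‖s‖ / (|ρ.im| / 2 * |ρ.im|)) := by gcongr
      _ = zeroWeight ρ * (2 * ‖s‖ * (1 / |ρ.im|) ^ 2) := by field_simp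
      _ ≤ zeroWeight ρ * (2 * ‖s‖ * (d * (1 / (1 + |ρ.im|))) ^ 2) := by
          gcongr
          exact hinv ρ hz
      _ = _ := by simp only [div_pow, one_pow, mul_pow]; ring
  · simp [fracTerm, zeroWeight_eq_zero hz]

/-- **The partial fractions.** -/
theorem xiLogDeriv_sub_eq {s : ℂ} (hxs : xiFn s ≠ 0) :
    xiLogDeriv s - xiLogDeriv 0 = ∑' ρ, fracTerm s ρ := by
  rcases eq_or_ne s 0 with rfl | hs
  · rw [sub_self, tsum_congr (g := fun _ : ℂ => (0 : ℂ)) fun ρ => ?_, tsum_zero]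
    rw [fracTerm, zero_sub, inv_neg, neg_add_cancel, mul_zero]
  obtain ⟨C, hC, hedge⟩ := exists_edge_bound
  obtain ⟨K, hK1, hK⟩ := ell_pow_le
  obtain ⟨c, hc, hheight⟩ := exists_good_height
  choose T hT1 hT2 hgap using fun m : ℕ => hheight (m + ⌈2 * ‖s‖⌉₊ + 8)
  obtain ⟨d, hd⟩ : ∃ d, d = min c 1 := ⟨_, rfl⟩
  have hd0 : 0 < d := hd ▸ lt_min hc one_pos
  have hlow : ∀ m : ℕ, (m : ℝ) + (2 * ‖s‖ + 8) ≤ T m := fun m => by
    refine le_trans ?_ (hT1 m)
    push_cast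
    linarith [Nat.le_ceil (2 * ‖s‖)]
  have hord : ∀ m ρ, xiFn ρ = 0 → |ρ.im| ≠ T m := fun m ρ hρ h => by
    have := hgap m ρ hρ
    rw [h, sub_self, abs_zero] at this
    linarith [div_pos hc (ell_pos ((m + ⌈2 * ‖s‖⌉₊ + 8 : ℕ) : ℝ))]
  have hTtop : Tendsto T atTop atTop := tendsto_atTop_mono
    (fun m => le_trans (le_add_of_nonneg_right (by positivity)) (hlow m))
    tendsto_natCast_atTop_atTop
  obtain ⟨B, hB⟩ : ∃ B, B = C * 2 * K / d * (12 * ‖s‖) * 8 := ⟨_, rfl⟩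
  have hbd : ∀ m, ‖boxInt (fun u => xiLogDeriv u * (s / (u * (u - s)))) (1 - T m) (T m) (T m)‖ ≤
      B * (T m) ^ (-(1 / 2) : ℝ) := by
    intro m
    have hm0 : (0 : ℝ) ≤ m := Nat.cast_nonneg m
    have hsn := norm_nonneg s
    have hTm : 8 + 2 * ‖s‖ ≤ T m := by linarith [hlow m]
    have hT0 : 0 < T m := by linarith
    obtain ⟨δ, hδ⟩ : ∃ δ, δ = d / ell ((m + ⌈2 * ‖s‖⌉₊ + 8 : ℕ) : ℝ) := ⟨_, rfl⟩
    have hδ0 : 0 < δ := hδ ▸ div_pos hd0 (ell_pos _)
    have hδ1 : δ ≤ 1 := by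
      rw [hδ, div_le_one (ell_pos _)]
      linarith [four_le_ell ((m + ⌈2 * ‖s‖⌉₊ + 8 : ℕ) : ℝ), hd ▸ min_le_right c 1]
    have hgap' : ∀ ρ, xiFn ρ = 0 → δ ≤ |(|ρ.im| - T m)| := fun ρ hρ =>
      le_trans (hδ ▸ div_le_div_of_nonneg_right (hd ▸ min_le_left c 1) (ell_pos _).le) (hgap m ρ hρ)
    have hEd : C * ell (T m) / δ ≤ C * 2 * K * √(T m) / d := by
      have e2 : ell ((m + ⌈2 * ‖s‖⌉₊ + 8 : ℕ) : ℝ) ≤ ell (T m) := ell_mono (by
        rw [Nat.abs_cast, abs_of_pos hT0]; exact hT1 m)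
      have hl := four_le_ell (T m)
      have h9 : ell (T m) ^ 2 ≤ K * (1 + T m ^ 2) ^ (1 / 4 : ℝ) :=
        (pow_le_pow_right₀ (by linarith) (by norm_num)).trans (hK _)
      have h10 : (1 + T m ^ 2) ^ (1 / 4 : ℝ) ≤ 2 * √(T m) := by
        calc (1 + T m ^ 2) ^ (1 / 4 : ℝ) ≤ ((2 * T m) ^ 2) ^ (1 / 4 : ℝ) :=
              Real.rpow_le_rpow (by positivity) (by nlinarith) (by norm_num)
          _ = √(2 * T m) := by
              rw [Real.sqrt_eq_rpow, ← Real.rpow_natCast, ← Real.rpow_mul (by positivity)]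
              norm_num
          _ ≤ 2 * √(T m) := by
              rw [Real.sqrt_le_left (by positivity), mul_pow, Real.sq_sqrt hT0.le]
              linarith
      rw [hδ, div_div_eq_mul_div]
      refine div_le_div_of_nonneg_right ?_ hd0.le
      calc C * ell (T m) * ell ((m + ⌈2 * ‖s‖⌉₊ + 8 : ℕ) : ℝ) ≤ C * ell (T m) ^ 2 := by
            rw [mul_assoc, sq]
            exact mul_le_mul_of_nonneg_left (mul_le_mul_of_nonneg_left e2 (by linarith)) hC
        _ ≤ C * (K * (2 * √(T m))) :=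
            mul_le_mul_of_nonneg_left
              (h9.trans (mul_le_mul_of_nonneg_left h10 (by linarith))) hC
        _ = _ := by ring
    refine (norm_boxInt_le (M := C * 2 * K * √(T m) / d * (12 * ‖s‖ / T m ^ 2))
      (by linarith) hT0.le fun u hu => ?_).trans ?_
    · rw [norm_mul]
      have hu1 := hedge (T m) δ (by linarith) hδ0 hδ1 hgap' u hu
      refine mul_le_mul (hu1.trans hEd) ?_ (norm_nonneg _) (by positivity)
      have hbig : T m / 2 ≤ ‖u‖ ∧ T m / 4 ≤ ‖u - s‖ := by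
        have h5 : T m - 1 ≤ ‖u‖ := by
          rcases hu.2.2 with h | h | h | h
          · refine le_trans ?_ (abs_im_le_norm u); rw [h, abs_neg, abs_of_pos hT0]; linarith
          · refine le_trans ?_ (abs_im_le_norm u); rw [h, abs_of_pos hT0]; linarith
          · refine le_trans ?_ (abs_re_le_norm u); rw [h, abs_of_neg (by linarith)]; linarith
          · refine le_trans ?_ (abs_re_le_norm u); rw [h, abs_of_pos hT0]; linarith
        exact ⟨by linarith, by linarith [norm_sub_norm_le u s]⟩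
      rw [norm_div, norm_mul]
      refine (div_le_div_of_nonneg_left hsn (by positivity)
        (mul_le_mul hbig.1 hbig.2 (by positivity) (norm_nonneg _))).trans ?_
      rw [div_le_div_iff₀ (by positivity) (by positivity)]
      nlinarith [mul_nonneg hsn (sq_nonneg (T m))]
    · have h6 : 2 * (T m - (1 - T m)) + 4 * T m ≤ 8 * T m := by linarith
      refine (mul_le_mul_of_nonneg_left h6 (by positivity)).trans (le_of_eq ?_)
      rw [hB, Real.rpow_neg hT0.le, ← Real.sqrt_eq_rpow]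
      have hs2 : √(T m) * √(T m) = T m := Real.mul_self_sqrt hT0.le
      have hs0 : √(T m) ≠ 0 := (Real.sqrt_pos.2 hT0).ne'
      field_simp
      nlinarith
  have hlim : Tendsto (fun m => boxInt (fun u => xiLogDeriv u * (s / (u * (u - s))))
      (1 - T m) (T m) (T m)) atTop (𝓝 0) := by
    refine squeeze_zero_norm hbd ?_
    simpa using ((tendsto_rpow_neg_atTop (show (0 : ℝ) < 1 / 2 by norm_num)).comp hTtop).const_mul B
  have hbox := fun m => boxInt_frac hxs (T := T m)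
    (by linarith [hlow m, norm_nonneg s, (Nat.cast_nonneg m : (0 : ℝ) ≤ m)])
    (by linarith [hlow m, (Nat.cast_nonneg m : (0 : ℝ) ≤ m)]) (hord m)
  simp only [hbox] at hlim
  have hfin : Tendsto (fun m => ∑ ρ ∈ zerosUpTo (T m), fracTerm s ρ) atTop
      (𝓝 (∑' ρ, fracTerm s ρ)) := by
    classical
    have hsupp : Function.support (fracTerm s) ⊆ {ρ | xiFn ρ = 0} := fun ρ hρ => by
      by_contra h
      exact hρ (by simp [fracTerm, zeroWeight_eq_zero (show xiFn ρ ≠ 0 from h)])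
    have h : HasSum (fracTerm s ∘ ((↑) : {ρ : ℂ | xiFn ρ = 0} → ℂ)) (∑' ρ, fracTerm s ρ) :=
      (hasSum_subtype_iff_of_support_subset hsupp).2 (summable_norm_fracTerm s).of_norm.hasSum
    have hatTop : Tendsto (fun m => (zerosUpTo (T m)).subtype fun ρ => ρ ∈ {ρ : ℂ | xiFn ρ = 0})
        atTop atTop := by
      refine tendsto_atTop.2 fun S => ?_
      filter_upwards [hTtop.eventually (eventually_ge_atTop (∑ ρ ∈ S, |(ρ : ℂ).im|))] with m hm
      intro ρ hρ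
      rw [Finset.mem_subtype, mem_zerosUpTo]
      exact ⟨ρ.2, le_trans (Finset.single_le_sum
        (f := fun ρ : {ρ : ℂ | xiFn ρ = 0} => |(ρ : ℂ).im|) (fun i _ => abs_nonneg _) hρ) hm⟩
    exact (h.comp hatTop).congr fun m =>
      Finset.sum_subtype_of_mem (fun ρ => fracTerm s ρ) fun ρ hρ => (mem_zerosUpTo.1 hρ).1
  have heq := tendsto_nhds_unique hlim ((hfin.const_sub _).const_mul _)
  have hne : (2 : ℂ) * π * I ≠ 0 := by simp [Real.pi_ne_zero]
  exact sub_eq_zero.1 ((mul_eq_zero.1 heq.symm).resolve_left hne)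

/-- `m (1 / (s - ρ) + 1 / (s - 1 + ρ)) / 2`. -/
def pairTerm (s ρ : ℂ) : ℂ := (zeroWeight ρ : ℂ) * ((s - ρ)⁻¹ + (s - 1 + ρ)⁻¹) / 2

theorem pairTerm_eq (s ρ : ℂ) : pairTerm s ρ = (fracTerm s ρ - fracTerm (1 - s) ρ) / 2 := by
  rw [pairTerm, fracTerm, fracTerm, show 1 - s - ρ = -(s - 1 + ρ) by ring, inv_neg]
  ring

/-- **The symmetrical form.** -/
theorem hasSum_pairTerm {s : ℂ} (hxs : xiFn s ≠ 0) : HasSum (pairTerm s) (xiLogDeriv s) := by
  have h1 := (summable_norm_fracTerm s).of_norm.hasSum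
  have h2 := (summable_norm_fracTerm (1 - s)).of_norm.hasSum
  rw [← xiLogDeriv_sub_eq hxs] at h1
  rw [← xiLogDeriv_sub_eq (by rwa [xiFn_one_sub]), xiLogDeriv_one_sub] at h2
  have h := (h1.sub h2).div_const 2
  rw [show (xiLogDeriv s - xiLogDeriv 0 - (-xiLogDeriv s - xiLogDeriv 0)) / 2 = xiLogDeriv s by
    ring] at h
  exact h.congr_fun (pairTerm_eq s)

theorem zeroWeight_one_sub (ρ : ℂ) : zeroWeight (1 - ρ) = zeroWeight ρ :=
  analyticOrderNatAt_one_sub ρ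

/-- `re (ξ'/ξ 0)`. -/
theorem re_xiLogDeriv_zero : (xiLogDeriv 0).re =
    -(1 + Real.eulerMascheroniConstant / 2 - Real.log (4 * π) / 2) := by
  have hd0 : HasDerivAt xiFn (-completedRiemannZeta₀ 0 / 2) 0 := by
    refine (((((hasDerivAt_id' (0 : ℂ)).mul ((hasDerivAt_id' (0 : ℂ)).sub_const 1)).mul
      differentiable_completedZeta₀.differentiableAt.hasDerivAt).add_const 1).div_const 2
        ).congr_deriv ?_
    simp
  have h0 : xiFn 0 = 1 / 2 := by simp [xiFn]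
  rw [xiLogDeriv, hd0.deriv, h0, completedRiemannZeta₀_zero,
    show (4 : ℂ) * π = ((4 * π : ℝ) : ℂ) by push_cast; ring,
    ← Complex.ofReal_log (by positivity)]
  simp
  ring

/-- `∑ m re (1 / ρ) = 1 + γ / 2 - log (4 π) / 2`. -/
theorem hasSum_re_inv : HasSum (fun ρ : ℂ => (zeroWeight ρ : ℝ) * (ρ⁻¹).re)
    (1 + Real.eulerMascheroniConstant / 2 - Real.log (4 * π) / 2) := by
  obtain ⟨d, hd, hinv⟩ := exists_inv_im_le
  obtain ⟨A, hA, hsq⟩ := exists_sq_sum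
  have hsum : Summable fun ρ : ℂ => (zeroWeight ρ : ℝ) * (ρ⁻¹).re := by
    refine Summable.of_norm_bounded
      ((summable_of_sum_le (fun ρ => by positivity) hsq).mul_left (d ^ 2)) fun ρ => ?_
    by_cases hz : xiFn ρ = 0
    · obtain ⟨h0, h1⟩ := xiFn_zero_strip hz
      have hi : 0 < ρ.im ^ 2 := sq_pos_of_ne_zero (im_ne_zero_of_zero hz)
      rw [norm_mul, RCLike.norm_natCast, Real.norm_eq_abs, inv_re, abs_div, abs_of_pos h0,
        abs_of_nonneg (normSq_nonneg ρ)]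
      calc (zeroWeight ρ : ℝ) * (ρ.re / normSq ρ)
          ≤ zeroWeight ρ * (1 / ρ.im ^ 2) := by
            gcongr
            rw [normSq_apply]
            nlinarith
        _ ≤ zeroWeight ρ * (d * (1 / (1 + |ρ.im|))) ^ 2 := by
            rw [← sq_abs, ← one_div_pow]
            gcongr
            exact hinv ρ hz
        _ = _ := by simp only [div_pow, one_pow, mul_pow]; ring
    · simp [zeroWeight_eq_zero hz]
  have h2 : HasSum (fun ρ : ℂ => (zeroWeight ρ : ℝ) * ((1 - ρ)⁻¹).re)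
      (∑' ρ : ℂ, (zeroWeight ρ : ℝ) * (ρ⁻¹).re) := by
    refine ((Equiv.subLeft (1 : ℂ)).hasSum_iff.2 hsum.hasSum).congr_fun fun ρ => ?_
    rw [Function.comp_apply, Equiv.subLeft_apply, zeroWeight_one_sub]
  have h3 := (summable_norm_fracTerm 1).of_norm.hasSum
  have hx1 : xiFn 1 ≠ 0 := by simpa using xiFn_real_ne_zero 1
  rw [← xiLogDeriv_sub_eq hx1] at h3
  have h4 := Complex.hasSum_re h3
  have h5 : HasSum (fun ρ : ℂ => (fracTerm 1 ρ).re)
      (2 * ∑' ρ : ℂ, (zeroWeight ρ : ℝ) * (ρ⁻¹).re) := by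
    rw [two_mul]
    refine (h2.add hsum.hasSum).congr_fun fun ρ => ?_
    rw [fracTerm, ← Complex.ofReal_natCast, re_ofReal_mul, add_re]
    ring
  have h6 := h5.unique h4
  have hL1 : xiLogDeriv 1 = -xiLogDeriv 0 := by
    rw [← xiLogDeriv_one_sub, sub_zero]
  rw [hL1, sub_re, neg_re, re_xiLogDeriv_zero] at h6
  have heq : (∑' ρ : ℂ, (zeroWeight ρ : ℝ) * (ρ⁻¹).re) =
      1 + Real.eulerMascheroniConstant / 2 - Real.log (4 * π) / 2 := by linarith
  exact heq ▸ hsum.hasSum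

end FA.LiCriterion

end
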