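import Fermat.Agent.LiCriterion.Partial
import Mathlib.Analysis.Complex.Positivity
import Mathlib.Analysis.Complex.HasPrimitives

/-!
# Nonnegative Taylor coefficients of `ξ'/ξ (1 / (1 - z)) / (1 - z)²` exclude zeros

They force the Taylor series to converge on the unit disc, where it then solves
`F' = G F` for `F z = ξ (1 / (1 - z))`; so `F` has no zero there, and the disc is `re s > 1/2`.
-/

set_option autoImplicit false

noncomputable section

namespace FA.LiCriterion

open Complex Filter Topology Set FA.RiemannMangoldt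
open scoped ComplexOrder

/-- `d/dz log ξ (1 / (1 - z))`. -/
def liGen (z : ℂ) : ℂ := xiLogDeriv (1 - z)⁻¹ / (1 - z) ^ 2

/-- Where it is holomorphic. -/
def liDomain : Set ℂ := {z | z ≠ 1 ∧ xiFn (1 - z)⁻¹ ≠ 0}

theorem isOpen_liDomain : IsOpen liDomain := by
  refine ContinuousOn.isOpen_inter_preimage (s := {z : ℂ | z ≠ 1}) (fun z hz => ?_) isOpen_ne
    isOpen_ne (f := fun z => xiFn (1 - z)⁻¹) (t := {w | w ≠ 0})
  exact (differentiable_xiFn.continuous.continuousAt.comp
    ((continuousAt_const.sub continuousAt_id).inv₀ (sub_ne_zero.2 (Ne.symm hz)))).continuousWithinAt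

theorem differentiableOn_liGen : DifferentiableOn ℂ liGen liDomain := fun z hz => by
  have h1 : (1 - z) ≠ 0 := sub_ne_zero.2 (Ne.symm hz.1)
  refine ((DifferentiableAt.comp (g := xiLogDeriv) z ?_
    ((differentiableAt_id.const_sub 1).inv h1)).div ((differentiableAt_id.const_sub 1).pow 2)
      (pow_ne_zero 2 h1)).differentiableWithinAt
  exact (differentiable_xiFn.analyticAt _).deriv.differentiableAt.div (differentiable_xiFn _) hz.2

theorem real_mem_liDomain {t : ℝ} (h1 : t < 1) : (t : ℂ) ∈ liDomain := by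
  refine ⟨fun h => h1.ne (by exact_mod_cast h), ?_⟩
  rw [← Complex.ofReal_one, ← Complex.ofReal_sub, ← Complex.ofReal_inv]
  exact xiFn_real_ne_zero _

theorem differentiableOn_iterate {f : ℂ → ℂ} {U : Set ℂ} (hU : IsOpen U)
    (hf : DifferentiableOn ℂ f U) (n : ℕ) : DifferentiableOn ℂ (iteratedDeriv n f) U := by
  induction n with
  | zero => simpa using hf
  | succ n ih => rw [iteratedDeriv_succ]; exact ih.deriv hU

theorem iteratedDeriv_add (f : ℂ → ℂ) (m n : ℕ) :
    iteratedDeriv m (iteratedDeriv n f) = iteratedDeriv (m + n) f := by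
  simp only [iteratedDeriv_eq_iterate, Function.iterate_add_apply]

/-- Nonnegative derivatives at `0` stay nonnegative along `[0, 1)`. -/
theorem iteratedDeriv_nonneg_real {f : ℂ → ℂ} (hf : DifferentiableOn ℂ f liDomain)
    (h : ∀ n, 0 ≤ iteratedDeriv n f 0) {b : ℝ} (hb0 : 0 ≤ b) (hb1 : b < 1) (n : ℕ) :
    0 ≤ iteratedDeriv n f (b : ℂ) := by
  suffices H : b ∈ {t : ℝ | ∀ n, 0 ≤ iteratedDeriv n f (t : ℂ)} from H n
  refine IsClosed.mem_of_ge_of_forall_exists_gt ?_ (fun n => by simpa using h n) hb0 fun x hx => ?_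
  · have : {t : ℝ | ∀ n, 0 ≤ iteratedDeriv n f (t : ℂ)} ∩ Icc 0 b =
        ⋂ n : ℕ, Icc 0 b ∩ (fun t : ℝ => iteratedDeriv n f (t : ℂ)) ⁻¹' Ici 0 := by
      ext t
      simp only [mem_inter_iff, mem_iInter, mem_preimage, mem_Ici, mem_ofPred_eq]
      exact ⟨fun h n => ⟨h.2, h.1 n⟩, fun h => ⟨fun n => (h n).2, (h 0).1⟩⟩
    rw [this]
    refine isClosed_iInter fun n => ContinuousOn.preimage_isClosed_of_isClosed (fun t ht => ?_)
      isClosed_Icc ?_
    · exact ContinuousAt.continuousWithinAt (ContinuousAt.comp' (g := iteratedDeriv n f)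
        (f := fun v : ℝ => (v : ℂ))
        ((differentiableOn_iterate isOpen_liDomain hf n).differentiableAt
          (isOpen_liDomain.mem_nhds (real_mem_liDomain (ht.2.trans_lt hb1)))).continuousAt
        (by fun_prop))
    · rw [show Ici (0 : ℂ) = {z : ℂ | 0 ≤ z.re} ∩ {z | 0 = z.im} by
        ext z; simp [Complex.le_def]]
      exact (isClosed_le continuous_const continuous_re).inter
        (isClosed_eq continuous_const continuous_im)
  · obtain ⟨hxs, hx0, hxb⟩ := hx
    obtain ⟨r, hr, hball⟩ := Metric.isOpen_iff.1 isOpen_liDomain _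
      (real_mem_liDomain (hxb.trans hb1))
    refine ⟨min b (x + r / 2), fun n => ?_, lt_min hxb (by linarith), min_le_left _ _⟩
    refine ((differentiableOn_iterate isOpen_liDomain hf n).mono hball
      ).nonneg_of_iteratedDeriv_nonneg (fun m => by rw [iteratedDeriv_add]; exact hxs _)
      (Complex.real_le_real.2 (le_min hxb.le (by linarith))) ?_
    rw [Metric.mem_ball, dist_eq, ← Complex.ofReal_sub, Complex.norm_real,
      Real.norm_of_nonneg (sub_nonneg.2 (le_min hxb.le (by linarith)))]
    linarith [min_le_right b (x + r / 2)]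

/-- The Taylor polynomials stay below the function on `[0, 1)`. -/
theorem taylor_sum_le : ∀ (N : ℕ) {f : ℂ → ℂ}, DifferentiableOn ℂ f liDomain →
    (∀ n, 0 ≤ iteratedDeriv n f 0) → ∀ {b : ℝ}, 0 ≤ b → b < 1 →
      ∑ k ∈ Finset.range N, (iteratedDeriv k f 0).re * b ^ k / k.factorial ≤ (f (b : ℂ)).re := by
  intro N
  induction N with
  | zero =>
    intro f hf h b hb0 hb1
    simpa using (Complex.nonneg_iff.1 (iteratedDeriv_nonneg_real hf h hb0 hb1 0)).1
  | succ N ih =>
    intro f hf h b hb0 hb1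
    have hd : DifferentiableOn ℂ (deriv f) liDomain := hf.deriv isOpen_liDomain
    have hh : ∀ n, 0 ≤ iteratedDeriv n (deriv f) 0 := fun n => by
      rw [← iteratedDeriv_succ']; exact h (n + 1)
    obtain ⟨P, hP⟩ : ∃ P : ℝ → ℝ, P = fun t =>
        ∑ k ∈ Finset.range (N + 1), (iteratedDeriv k f 0).re * t ^ k / k.factorial := ⟨_, rfl⟩
    have hP' : ∀ t : ℝ, HasDerivAt P
        (∑ k ∈ Finset.range N, (iteratedDeriv k (deriv f) 0).re * t ^ k / k.factorial) t :=
        fun t => by
      have h1 : HasDerivAt P (∑ k ∈ Finset.range (N + 1),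
          (iteratedDeriv k f 0).re * ((k : ℝ) * t ^ (k - 1)) / k.factorial) t := by
        rw [hP]
        exact HasDerivAt.fun_sum fun k _ =>
          ((hasDerivAt_pow k t).const_mul _).div_const _
      refine h1.congr_deriv ?_
      rw [Finset.sum_range_succ']
      simp only [Nat.cast_zero, zero_mul, mul_zero, zero_div, add_zero, Nat.add_sub_cancel]
      refine Finset.sum_congr rfl fun k _ => ?_
      rw [iteratedDeriv_succ', Nat.factorial_succ]
      push_cast
      field_simp
    have hF : ∀ t ∈ Icc 0 b, HasDerivAt (fun v : ℝ => (f (v : ℂ)).re) (deriv f (t : ℂ)).re t :=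
      fun t ht => reCLM.hasFDerivAt.comp_hasDerivAt t
        (hf.differentiableAt (isOpen_liDomain.mem_nhds
          (real_mem_liDomain (ht.2.trans_lt hb1)))).hasDerivAt.comp_ofReal
    have hmono : MonotoneOn (fun t : ℝ => (f (t : ℂ)).re - P t) (Icc 0 b) := by
      refine monotoneOn_of_hasDerivWithinAt_nonneg (convex_Icc 0 b)
        (fun t ht => ((hF t ht).sub (hP' t)).continuousAt.continuousWithinAt)
        (fun t ht => ((hF t (interior_subset ht)).sub (hP' t)).hasDerivWithinAt) fun t ht => ?_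
      have ht' := interior_subset (s := Icc 0 b) ht
      exact sub_nonneg.2 (ih hd hh ht'.1 (ht'.2.trans_lt hb1))
    have h2 := hmono (left_mem_Icc.2 hb0) (right_mem_Icc.2 hb0) hb0
    have h3 : P 0 = (f 0).re := by
      rw [hP]
      simp only
      rw [Finset.sum_eq_single 0 (fun k _ hk => by simp [hk]) (by simp)]
      simp
    simp only [Complex.ofReal_zero, h3, sub_self] at h2
    rw [hP] at h2
    linarith

/-- **Nonnegative coefficients exclude zeros with `re s > 1/2`.** -/
theorem xiFn_ne_zero_of_nonneg (h : ∀ n, 0 ≤ iteratedDeriv n liGen 0) {s : ℂ}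
    (hs : 1 / 2 < s.re) : xiFn s ≠ 0 := by
  obtain ⟨c, hc⟩ : ∃ c : ℕ → ℂ, c = fun k => (k.factorial : ℂ)⁻¹ * iteratedDeriv k liGen 0 :=
    ⟨_, rfl⟩
  have hcn : ∀ k, ‖c k‖ = (iteratedDeriv k liGen 0).re / k.factorial := fun k => by
    rw [hc, norm_mul, norm_inv, Complex.norm_natCast]
    obtain ⟨h1, h2⟩ := Complex.nonneg_iff.1 (h k)
    rw [show iteratedDeriv k liGen 0 = (((iteratedDeriv k liGen 0).re : ℝ) : ℂ) from
      Complex.ext rfl (by simp [← h2]), Complex.norm_real, Real.norm_of_nonneg h1, ofReal_re]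
    ring
  obtain ⟨G, hG⟩ : ∃ G : ℂ → ℂ, G = fun z => ∑' k, c k * z ^ k := ⟨_, rfl⟩
  have hGd : DifferentiableOn ℂ G (Metric.ball 0 1) := fun z hz => by
    rw [mem_ball_zero_iff] at hz
    obtain ⟨r, hzr, hr1⟩ := exists_between hz
    have hr0 : 0 ≤ r := (norm_nonneg z).trans hzr.le
    have hsum : Summable fun k => ‖c k‖ * r ^ k := by
      refine summable_of_sum_range_le (c := (liGen (r : ℂ)).re) (fun k => by positivity) fun N => ?_
      refine le_trans (le_of_eq (Finset.sum_congr rfl fun k _ => ?_))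
        (taylor_sum_le N differentiableOn_liGen h hr0 hr1)
      rw [hcn]
      ring
    have hd : DifferentiableOn ℂ G (Metric.ball 0 r) := by
      rw [hG]
      refine differentiableOn_tsum_of_summable_norm hsum (fun k => by fun_prop) Metric.isOpen_ball
        fun k w hw => ?_
      rw [norm_mul, norm_pow]
      exact mul_le_mul_of_nonneg_left
        (pow_le_pow_left₀ (norm_nonneg w) (mem_ball_zero_iff.1 hw).le k) (norm_nonneg _)
    exact (hd.differentiableAt (Metric.isOpen_ball.mem_nhds
      (mem_ball_zero_iff.2 hzr))).differentiableWithinAt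
  obtain ⟨F, hF⟩ : ∃ F : ℂ → ℂ, F = fun z => xiFn (1 - z)⁻¹ := ⟨_, rfl⟩
  have hφ : ∀ z ∈ Metric.ball (0 : ℂ) 1, HasDerivAt F (deriv xiFn (1 - z)⁻¹ / (1 - z) ^ 2) z :=
    fun z hz => by
    have h1 : (1 - z) ≠ 0 := fun h0 => by
      rw [← sub_eq_zero.1 h0] at hz
      simp at hz
    rw [hF]
    refine ((differentiable_xiFn _).hasDerivAt.comp z
      ((((hasDerivAt_id' z).const_sub 1)).inv h1)).congr_deriv ?_
    simp only [Pi.inv_apply]
    ring
  have hFd : DifferentiableOn ℂ F (Metric.ball 0 1) := fun z hz =>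
    (hφ z hz).differentiableAt.differentiableWithinAt
  have h0mem : (0 : ℂ) ∈ liDomain := by simpa using real_mem_liDomain one_pos
  have hnear : ∀ᶠ z in 𝓝 (0 : ℂ), deriv F z = G z * F z := by
    obtain ⟨r, hr, hball⟩ := Metric.isOpen_iff.1 isOpen_liDomain 0 h0mem
    filter_upwards [Metric.ball_mem_nhds (0 : ℂ) hr, Metric.ball_mem_nhds (0 : ℂ) one_pos]
      with z hz hz1
    have hT := (Complex.taylorSeries_eq_on_ball' hz (differentiableOn_liGen.mono hball))
    have hGz : G z = liGen z := by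
      rw [hG, ← hT]
      refine tsum_congr fun k => ?_
      rw [hc, sub_zero]
    have hne := (hball hz).2
    rw [(hφ z hz1).deriv, hGz, liGen, xiLogDeriv, hF]
    dsimp only
    rw [div_mul_eq_mul_div, div_mul_cancel₀ _ hne]
  have hode : EqOn (deriv F) (fun z => G z * F z) (Metric.ball 0 1) :=
    AnalyticOnNhd.eqOn_of_preconnected_of_eventuallyEq
      ((hFd.deriv Metric.isOpen_ball).analyticOnNhd Metric.isOpen_ball)
      ((hGd.mul hFd).analyticOnNhd Metric.isOpen_ball) (convex_ball _ _).isPreconnected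
      (Metric.mem_ball_self one_pos) hnear
  obtain ⟨P, hP⟩ := hGd.isExactOn_ball
  have hexp : ∀ z ∈ Metric.ball (0 : ℂ) 1,
      HasDerivAt (fun w => F w * Complex.exp (-P w)) 0 z := fun z hz => by
    refine ((hφ z hz).mul ((hP z hz).fun_neg.cexp)).congr_deriv ?_
    have := hode hz
    rw [(hφ z hz).deriv] at this
    rw [this]
    ring
  obtain ⟨k, hk⟩ := Metric.isOpen_ball.exists_is_const_of_deriv_eq_zero
    (convex_ball (0 : ℂ) 1).isPreconnected (f := fun w => F w * Complex.exp (-P w))
    (fun z hz => (hexp z hz).differentiableAt.differentiableWithinAt)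
    (fun z hz => (hexp z hz).deriv)
  have hs0 : s ≠ 0 := fun h0 => by rw [h0] at hs; norm_num at hs
  have hz : 1 - s⁻¹ ∈ Metric.ball (0 : ℂ) 1 := by
    rw [mem_ball_zero_iff, show 1 - s⁻¹ = (s - 1) / s by field_simp, norm_div,
      div_lt_one (norm_pos_iff.2 hs0), ← sq_lt_sq₀ (norm_nonneg _) (norm_nonneg _),
      Complex.sq_norm, Complex.sq_norm, normSq_apply, normSq_apply]
    simp
    nlinarith
  intro hzero
  have h0 := hk 0 (Metric.mem_ball_self one_pos)
  have h1 := hk _ hz
  simp only [hF, sub_sub_cancel, inv_inv, hzero, zero_mul] at h1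
  simp only [hF, sub_zero, inv_one] at h0
  exact mul_ne_zero (by simpa using xiFn_real_ne_zero 1) (Complex.exp_ne_zero _) (h0.trans h1.symm)

end FA.LiCriterion

end
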